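/-
S55 / block LOC : THE INTERFACE between the arithmetic of henselian local fields (LOC-A, LOC-F)
and the cohomological computation of the local Brauer group (LOC-C).

`Γ` is a group with a level system `𝓝` acting on `A` (for us `Γ = Gv q`, `𝓝 = lvlLoc q`,
`A = ResMod (ιv q) Kx`).  For a subgroup `U` of `Γ`:
* `fixA A U`     : the `U`-invariants `A^U` (`= k_U^×`, `k_U` the fixed field of `U`),
* `nmA A V U b`  : the norm `∑_{u ∈ U/V} u • b` (`= N_{k_V/k_U} b` for `b ∈ A^V`),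
* `nmTop A U a`  : the norm `∑_{γ ∈ Γ/U} γ • a` (`= N_{k_U/k} a` for `a ∈ A^U`),
* `LocalInput 𝓝 A` : the arithmetic facts used by LOC-C.
Only definitions.
-/
import Fermat.Agent.S55.Loc.Coh.CupDefs

set_option autoImplicit false

namespace Fermat.Agent.S55.Loc

variable {Γ : Type} [Group Γ]

/-- The invariants of a subgroup `U`. -/
def fixA (A : Type) [AddCommGroup A] [DistribMulAction Γ A] (U : Subgroup Γ) : AddSubgroup A where
  carrier := {a | ∀ u ∈ U, u • a = a}
  zero_mem' := fun u _ => smul_zero u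
  add_mem' := fun {a b} ha hb u hu => by rw [smul_add, ha u hu, hb u hu]
  neg_mem' := fun {a} ha u hu => by rw [smul_neg, ha u hu]

theorem mem_fixA {A : Type} [AddCommGroup A] [DistribMulAction Γ A] {U : Subgroup Γ} {a : A} :
    a ∈ fixA A U ↔ ∀ u ∈ U, u • a = a := Iff.rfl

/-- The norm `∑_{u ∈ U/V} u • b` (meaningful for `b ∈ A^V`, `V ≤ U` of finite index). -/
noncomputable def nmA (A : Type) [AddCommGroup A] [DistribMulAction Γ A] (V U : Subgroup Γ)
    (b : A) : A :=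
  ∑ᶠ c : ↥U ⧸ V.subgroupOf U, ((Quotient.out c : ↥U) : Γ) • b

/-- The norm to the whole group `∑_{γ ∈ Γ/U} γ • a` (meaningful for `a ∈ A^U`). -/
noncomputable def nmTop (A : Type) [AddCommGroup A] [DistribMulAction Γ A] (U : Subgroup Γ)
    (a : A) : A :=
  ∑ᶠ c : Γ ⧸ U, (Quotient.out c : Γ) • a

/-- The subgroup of norms from `A^V` (it is contained in `A^U`). -/
noncomputable def normSub (A : Type) [AddCommGroup A] [DistribMulAction Γ A] (V U : Subgroup Γ) :
    AddSubgroup A :=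
  AddSubgroup.closure (nmA A V U '' (fixA A V : Set A))

/-- THE ARITHMETIC INPUT OF LOC-C.  Dictionary: `v` = normalised valuation of the base field
`k = A^Γ ∪ {0}`; `chi r` = the unramified character of `Γ` with value `r` at the Frobenius;
`w_U(a) := v (nmTop A U a) = f_U * ord_U(a)`. -/
structure LocalInput (𝓝 : LevelSys Γ) (A : Type) [AddCommGroup A] [DistribMulAction Γ A] where
  /-- the valuation of the base field (only its values on `A^Γ` matter) -/
  v : A → ℤ
  v_add : ∀ a ∈ fixA A (⊤ : Subgroup Γ), ∀ b ∈ fixA A (⊤ : Subgroup Γ), v (a + b) = v a + v b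
  /-- the unramified characters -/
  chi : QZ → Γ → QZ
  chi_add : ∀ r s γ, chi (r + s) γ = chi r γ + chi s γ
  chi_mul : ∀ r γ γ', chi r (γ * γ') = chi r γ + chi r γ'
  chi_level : ∀ r, ∃ N ∈ 𝓝.carrier, ∀ n ∈ N, chi r n = 0
  /-- a Frobenius element -/
  frob : Γ
  chi_frob : ∀ r, chi r frob = r
  /-- Hilbert 90 -/
  h90 : ∀ U : Subgroup Γ, 𝓝.IsOpen U → ∀ x : Hsm 𝓝 (IndMod (Γ ⧸ U) A) 1, x = 0
  /-- (AR1) `f_U ∣ w_U(a)` -/
  ar1 : ∀ U : Subgroup Γ, 𝓝.IsOpen U → ∀ r, (∀ u ∈ U, chi r u = 0) →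
    ∀ a ∈ fixA A U, v (nmTop A U a) • r = 0
  /-- (AR2) a uniformiser `π` of `k_U` has `w_U(π) = f_U` -/
  ar2 : ∀ U : Subgroup Γ, 𝓝.IsOpen U → ∃ π ∈ fixA A U, v (nmTop A U π) ≠ 0 ∧
    ∀ r, v (nmTop A U π) • r = 0 → ∀ u ∈ U, chi r u = 0
  /-- (AR3) units are norms from unramified extensions -/
  ar3 : ∀ U : Subgroup Γ, 𝓝.IsOpen U → ∀ a ∈ fixA A U, v (nmTop A U a) = 0 → ∀ r,
    ∀ V : Subgroup Γ, (∀ γ, γ ∈ V ↔ γ ∈ U ∧ chi r γ = 0) → ∃ b ∈ fixA A V, nmA A V U b = a
  /-- (AR4) the norm index of a cyclic extension of prime degree -/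
  ar4 : ∀ U V : Subgroup Γ, 𝓝.IsOpen V → V ≤ U → (V.subgroupOf U).Normal → ∀ ℓ : ℕ, ℓ.Prime →
    V.relIndex U = ℓ → (normSub A V U).relIndex (fixA A U) = ℓ

namespace LocalInput

variable {𝓝 : LevelSys Γ} {A : Type} [AddCommGroup A] [DistribMulAction Γ A]

/-- `w_U(a) = v(N_{U → Γ} a)`. -/
noncomputable def w (I : LocalInput 𝓝 A) (U : Subgroup Γ) (a : A) : ℤ := I.v (nmTop A U a)

/-- The inertia subgroup: the common kernel of the unramified characters. -/
def inertia (I : LocalInput 𝓝 A) : Subgroup Γ where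
  carrier := {γ | ∀ r, I.chi r γ = 0}
  one_mem' := fun r => by
    have h := I.chi_mul r 1 1
    rw [mul_one] at h
    exact (add_eq_left.1 h.symm)
  mul_mem' := fun {a b} ha hb r => by rw [I.chi_mul, ha r, hb r, add_zero]
  inv_mem' := fun {a} ha r => by
    have h1 : I.chi r 1 = 0 := by
      have h := I.chi_mul r 1 1
      rw [mul_one] at h
      exact (add_eq_left.1 h.symm)
    have h := I.chi_mul r a a⁻¹
    rw [mul_inv_cancel, h1, ha r, zero_add] at h
    exact h.symm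

end LocalInput

end Fermat.Agent.S55.Loc
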