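/-
S55 / block LOC : ADAPTER + ASSEMBLY.  From a `LocalInput (lvlLoc q) (KL q)` (arithmetic, LOC-A/LOC-F) and the
abstract local theory LOC-C to the fields `inv, L1, L3inj, L3surj, t, t_spec` of `LocPkg p q`.
The sign: `θ_σ(a) = - a ∪ δχ`, hence `inv := - I.inv`.
-/
import Fermat.Agent.S55.Arith.LocInterface
import Fermat.Agent.S55.Arith.Hilbert90
import Fermat.Agent.S55.Coh.Efface
import Fermat.Agent.S55.Loc.Coh.InvX
import Fermat.Agent.S55.Loc.PkgDefs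
import Fermat.Agent.S55.Loc.Coh.L6

set_option autoImplicit false

namespace Fermat.Agent.S55.Loc

/-! ### `ℤ/p = (ℚ/ℤ)[p]` -/

section zmod

theorem zmodToQZ_intCast (p : ℕ) (k : ℤ) : zmodToQZ p (k : ZMod p) = k • toQZ (1 / (p : ℚ)) := by
  unfold zmodToQZ
  rw [ZMod.lift_coe]
  rfl

theorem zmodToQZ_injective (p : ℕ) (hp : 0 < p) : Function.Injective (zmodToQZ p) := by
  rw [injective_iff_map_eq_zero]
  intro c hc
  obtain ⟨k, rfl⟩ := ZMod.intCast_surjective c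
  rw [zmodToQZ_intCast, QZ.zsmul_toQZ_inv_eq_zero_iff p hp] at hc
  exact (ZMod.intCast_zmod_eq_zero_iff_dvd k p).2 hc

theorem exists_zmodToQZ_eq (p : ℕ) (hp : 0 < p) (r : QZ) (h : p • r = 0) :
    ∃ c : ZMod p, zmodToQZ p c = r := by
  obtain ⟨k, rfl⟩ := QZ.exists_eq_zsmul_of_nsmul_eq_zero p hp r h
  exact ⟨(k : ZMod p), zmodToQZ_intCast p k⟩

/-- A homomorphism to `ℚ/ℤ` with values killed by `p` factors through `ℤ/p`. -/
theorem exists_factor_zmod (p : ℕ) (hp : 0 < p) {M : Type} [AddCommGroup M] (f : M →+ QZ)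
    (h : ∀ x, p • f x = 0) : ∃ t : M →+ ZMod p, ∀ x, f x = zmodToQZ p (t x) := by
  choose g hg using fun x => exists_zmodToQZ_eq p hp (f x) (h x)
  refine ⟨⟨⟨g, ?_⟩, ?_⟩, fun x => (hg x).symm⟩
  · apply zmodToQZ_injective p hp
    rw [hg, map_zero, map_zero]
  · intro x y
    apply zmodToQZ_injective p hp
    rw [hg, map_add, map_add, hg, hg]

end zmod

/-! ### the abstract part -/

section abstract

variable {Γ : Type} [Group Γ] {𝓝 : LevelSys Γ} {A : Type} [AddCommGroup A] [DistribMulAction Γ A]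

theorem effaceHyp (𝓝 : LevelSys Γ) (A : Type) [AddCommGroup A] [DistribMulAction Γ A] [Smooth 𝓝 A]
    (n : ℕ) : EffaceHyp 𝓝 A n := fun _ hU x => Hsm.efface_coset hU n x

/-- Cohomology of the zero module. -/
theorem Hsm.eq_zero_of_forall_eq_zero {B : Type} [AddCommGroup B] [DistribMulAction Γ B]
    (h : ∀ b : B, b = 0) (n : ℕ) (x : Hsm 𝓝 B n) : x = 0 := by
  rw [← Hsm.map_id n x]
  exact Hsm.map_zero' (fun a => h _) n x

/-- Cohomology of a module killed by `p` is killed by `p`. -/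
theorem Hsm.nsmul_eq_zero_of_forall {B : Type} [AddCommGroup B] [DistribMulAction Γ B] (p : ℕ)
    (h : ∀ b : B, p • b = 0) (n : ℕ) (x : Hsm 𝓝 B n) : p • x = 0 := by
  rw [← Hsm.map_nsmul' (χ := 0) p (fun a => (h a).symm) n x]
  exact Hsm.map_zero' (fun a => rfl) n x

variable [Smooth 𝓝 A] (I : LocalInput 𝓝 A)

/-- The invariant map with the sign convention of `LocPkg` (`inv(θ_σ(a)) = + ord(a) k / m`). -/
noncomputable def LocalInput.pinv : Hsm 𝓝 A 2 →+ QZ :=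
  -((I.inv (fourTermHyp Γ A) (effaceHyp 𝓝 A 1) : Hsm 𝓝 A 2 ≃+ QZ) : Hsm 𝓝 A 2 →+ QZ)

theorem LocalInput.pinv_sum (X : Type) [MulAction Γ X] [Finite X] (y : Hsm 𝓝 (IndMod X A) 2) :
    I.pinv (Hsm.map (IndMod.sum X A) 2 y)
      = - I.invX (fourTermHyp Γ A) (effaceHyp 𝓝 A 1) X y := rfl

theorem LocalInput.pinv_sum_injective (X : Type) [MulAction Γ X] [Finite X] [SmoothSet 𝓝 X]
    [MulAction.IsPretransitive Γ X] (y : Hsm 𝓝 (IndMod X A) 2)
    (h : I.pinv (Hsm.map (IndMod.sum X A) 2 y) = 0) : y = 0 := by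
  rcases isEmpty_or_nonempty X with hX | hX
  · refine Hsm.eq_zero_of_forall_eq_zero (fun b => ?_) 2 y
    ext x
    exact hX.elim x
  · rw [I.pinv_sum, neg_eq_zero] at h
    apply (I.invX_bijective (fourTermHyp Γ A) (effaceHyp 𝓝 A 1) X).1
    rw [h, map_zero]

theorem LocalInput.pinv_sum_surjective (X : Type) [MulAction Γ X] [Finite X] [SmoothSet 𝓝 X]
    [MulAction.IsPretransitive Γ X] [Nonempty X] (c : QZ) :
    ∃ y : Hsm 𝓝 (IndMod X A) 2, I.pinv (Hsm.map (IndMod.sum X A) 2 y) = c := by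
  obtain ⟨y, hy⟩ := (I.invX_bijective (fourTermHyp Γ A) (effaceHyp 𝓝 A 1) X).2 (-c)
  exact ⟨y, by rw [I.pinv_sum, hy, neg_neg]⟩

omit [Smooth 𝓝 A] in
/-- `χ_r` on powers. -/
theorem LocalInput.chi_pow' (r : QZ) (g : Γ) (i : ℕ) : I.chi r (g ^ i) = i • I.chi r g := by
  induction i with
  | zero =>
    have h1 := I.chi_mul r 1 1
    rw [mul_one] at h1
    rw [pow_zero, zero_nsmul]
    exact add_eq_left.1 h1.symm
  | succ i ih => rw [pow_succ, I.chi_mul, ih, succ_nsmul]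

omit [Smooth 𝓝 A] in
theorem LocalInput.chi_inv' (r : QZ) (g : Γ) : I.chi r g⁻¹ = - I.chi r g := by
  have h1 : I.chi r 1 = 0 := by simpa using I.chi_pow' r 1 0
  have h := I.chi_mul r g g⁻¹
  rw [mul_inv_cancel, h1] at h
  exact (neg_eq_of_add_eq_zero_right h.symm).symm

omit [Smooth 𝓝 A] in
/-- Density for any other Frobenius element. -/
theorem LocalInput.IsDense.of_frob (hd : I.IsDense) (φ : Γ) (hφ : ∀ r, I.chi r φ = r) :
    ∀ N ∈ 𝓝.carrier, ∀ g : Γ, ∃ i : ℕ, ∃ τ ∈ I.inertia, ∃ ν ∈ N, g = φ ^ i * τ * ν := by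
  intro N hN g
  obtain ⟨i, τ, hτ, ν, hν, rfl⟩ := hd N hN g
  refine ⟨i, (φ ^ i)⁻¹ * I.frob ^ i * τ, fun r => ?_, ν, hν, by group⟩
  rw [I.chi_mul, I.chi_mul, I.chi_inv', I.chi_pow', I.chi_pow', hφ, I.chi_frob, hτ r]
  abel

/-- **Abstract L6 with the invariant.** -/
theorem LocalInput.pinv_theta (hd : I.IsDense) (φ : Γ) (hφ : ∀ r, I.chi r φ = r)
    {Y Y' : Type} [MulAction Γ Y] [MulAction Γ Y'] [Finite Y] [Finite Y'] [SmoothSet 𝓝 Y']
    [MulAction.IsPretransitive Γ Y] {u : Y' →[Γ] Y} {σ : Y' →[Γ] Y'} {m : ℕ}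
    (h : CyclicCover u σ m) (hJY : ∀ τ ∈ I.inertia, ∀ y' : Y', τ • y' = y')
    (y' : Y') (k : ℕ) (hk : φ ^ (Nat.card Y) • y' = σ^[k] y') (a : inv0 Γ (IndMod Y A)) :
    I.pinv (Hsm.map (IndMod.sum Y A) 2
        ((h.fourTerm (A := A)).theta (𝓝 := 𝓝) 0 (Hsm.H0equiv.symm a))) =
      I.v (IndMod.sum (G := Γ) Y A (a : IndMod Y A)) •
        toQZ ((k : ℚ) / ((m : ℚ) * (Nat.card Y : ℚ))) := by
  rw [I.theta_eq_neg_cup_ur φ hφ I.inertia le_rfl (hd.of_frob I φ hφ) h hJY y' k hk a,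
    I.pinv_sum, map_neg, neg_neg, I.invX_cup]

end abstract

/-! ### the fields of `LocPkg` -/

section fields

variable (p : ℕ) (q : Nat.Primes) (I : LocalInput (lvlLoc q) (KL q))

theorem pkg_L1 (Y : Type) [MulAction (Gv q) Y] [Finite Y] [SmoothSet (lvlLoc q) Y]
    (y : HKY q Y 1) : y = 0 := by
  have : SmoothSet (lvlAll.comap (ιv q)) Y := ‹SmoothSet (lvlLoc q) Y›
  exact hilbert90_ind (ιv q) Y y

theorem pkg_L3inj (Y : Type) [MulAction (Gv q) Y] [Finite Y] [SmoothSet (lvlLoc q) Y]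
    [MulAction.IsPretransitive (Gv q) Y] (y : HKY q Y 2) (_hy : y ∈ pPrimary p (HKY q Y 2))
    (h : invY q Y I.pinv y = 0) : y = 0 :=
  I.pinv_sum_injective Y y h

theorem pkg_L3surj (Y : Type) [MulAction (Gv q) Y] [Finite Y] [SmoothSet (lvlLoc q) Y]
    [MulAction.IsPretransitive (Gv q) Y] [Nonempty Y] (c : QZ) (hc : c ∈ pPrimary p QZ) :
    ∃ y ∈ pPrimary p (HKY q Y 2), invY q Y I.pinv y = c := by
  obtain ⟨y, hy⟩ := I.pinv_sum_surjective Y c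
  obtain ⟨k, hk⟩ := hc
  refine ⟨y, ⟨k, ?_⟩, hy⟩
  apply I.pinv_sum_injective Y
  rw [map_nsmul, map_nsmul, hy, hk]

theorem pkg_exists_t (hp : 0 < p) : ∃ t : Hloc q (Mu p) 2 →+ ZMod p, ∀ x : Hloc q (Mu p) 2,
    I.pinv (Hsm.map (ResMod.map (ιv q) (muSub p).inclG) 2 x) = zmodToQZ p (t x) := by
  refine exists_factor_zmod p hp
    (I.pinv.comp (Hsm.map (ResMod.map (ιv q) (muSub p).inclG) 2)) (fun x => ?_)
  rw [← map_nsmul, Hsm.nsmul_eq_zero_of_forall p (fun b => ?_) 2 x, map_zero]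
  exact Subtype.ext (Subtype.prop (p := fun a : Kx => p • a = 0) b)

/-- The statement of field `L6` of `LocPkg` for a given invariant map. -/
def L6Prop (q : Nat.Primes) (inv : Hsm (lvlLoc q) (KL q) 2 →+ QZ) : Prop :=
  ∀ (Y Y' : Type) [MulAction (Gv q) Y] [MulAction (Gv q) Y'] [Finite Y] [Finite Y']
    [SmoothSet (lvlLoc q) Y] [SmoothSet (lvlLoc q) Y'] [MulAction.IsPretransitive (Gv q) Y]
    (u : Y' →[Gv q] Y) (σ : Y' →[Gv q] Y') (m : ℕ) (h : CyclicCover u σ m),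
    (∀ τ ∈ inertiaLoc q, ∀ y' : Y', τ • y' = y') →
    ∀ (φ : Gv q), IsFrobLoc q φ → ∀ (y' : Y') (k : ℕ), φ ^ (Nat.card Y) • y' = σ^[k] y' →
    ∀ (a : HKY q Y 0) (c : ℤ),
      HasOrdAt q ((ResMod.toRes (ιv q)).symm ((Hsm.H0equiv a : IndMod Y (KL q)) (u y'))) c →
      invY q Y inv ((h.fourTerm (A := KL q)).theta 0 a) = QZ.mk ((c * k : ℚ) / m)

/-- Field `L6` from the arithmetic data. -/
theorem pkg_L6 (L : LocalArith p q) : L6Prop q L.I.pinv := by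
  intro Y Y' _ _ _ _ _ _ _ u σ m h hin φ hφ y' k hk a c hc
  obtain ⟨τ, hτ, rfl⟩ := L.frob_spec φ hφ
  have hchi : ∀ r, L.I.chi r (L.I.frob * τ) = r := fun r => by
    rw [L.I.chi_mul, L.I.chi_frob, L.le_inertia hτ r, add_zero]
  have key := L.I.pinv_theta L.dense _ hchi h (fun τ hτ => hin τ (L.inertia_le hτ)) y' k hk
    (Hsm.H0equiv a)
  rw [AddEquiv.symm_apply_apply, L.v_sum Y (Hsm.H0equiv a) (u y') c hc] at key
  have : Nonempty Y := ⟨u y'⟩
  have hf : (Nat.card Y : ℚ) ≠ 0 := Nat.cast_ne_zero.2 Nat.card_pos.ne'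
  have hm : (m : ℚ) ≠ 0 := Nat.cast_ne_zero.2 h.pos.ne'
  refine key.trans ?_
  rw [QZ.zsmul_toQZ]
  show toQZ _ = toQZ _
  congr 1
  push_cast
  field_simp

/-- The statement of field `L7` of `LocPkg`. -/
def L7Prop (q : Nat.Primes) : Prop :=
  ∀ (Y : Type) [MulAction (Gv q) Y] [Finite Y] [SmoothSet (lvlLoc q) Y]
    (z : Zsm (lvlLoc q) (IndMod Y (KL q)) 2) (N : Subgroup (Gv q)),
    inertiaLoc q ≤ N → IsLevelAt N z.1 → (∀ τ ∈ inertiaLoc q, ∀ y : Y, τ • y = y) →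
    (∀ g y, Kx.IsUnitAt (plc q) ((ResMod.toRes (ιv q)).symm (z.1 g y))) →
    Hsm.mk (lvlLoc q) (IndMod Y (KL q)) 2 z = 0

/-- The statement of field `L8` of `LocPkg`. -/
def L8Prop (p : ℕ) (q : Nat.Primes) : Prop :=
  ∀ (Y : Type) [MulAction (Gv q) Y] [Finite Y] [SmoothSet (lvlLoc q) Y]
    [MulAction.IsPretransitive (Gv q) Y] (y : Y),
    (∀ τ : Gv q, τ • y = y → ∀ ζ : Mu p, ιv q τ • ζ = ζ) →
    (nsmulAddMonoidHom (α := HKY q Y 0) p).range.index =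
      p ^ (2 + if (q : ℕ) = p then Nat.card Y else 0)

/-- ASSEMBLY of the local package. -/
noncomputable def locPkgOf (hp : 0 < p) (h6 : L6Prop q I.pinv) (h7 : L7Prop q) (h8 : L8Prop p q) :
    LocPkg p q where
  inv := I.pinv
  L1 := fun Y _ _ _ y => pkg_L1 q Y y
  L3inj := fun Y _ _ _ _ y hy h => pkg_L3inj p q I Y y hy h
  L3surj := fun Y _ _ _ _ _ c hc => pkg_L3surj p q I Y c hc
  L6 := h6
  L7 := h7
  L8 := h8
  t := (pkg_exists_t p q I hp).choose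
  t_spec := (pkg_exists_t p q I hp).choose_spec

/-- **LOC-P01.**  The local package from the arithmetic data. -/
theorem locPkg_of_localArith (hp : 0 < p) (L : LocalArith p q) : Nonempty (LocPkg p q) :=
  ⟨locPkgOf p q L.I hp (pkg_L6 p q L) L.L7 L.L8⟩

end fields

end Fermat.Agent.S55.Loc
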