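/-
S55 / block LOC : the interface between the concrete layer (`Loc/Inst`, `Loc/Unr`) and the
assembly `Loc/Pkg.lean`.  Only definitions (and the discharge of `FourTermHyp`).
Owner: helper173.
-/
import Fermat.Agent.S55.Loc.Coh.HypDefs
import Fermat.Agent.S55.Arith.LocInterface

set_option autoImplicit false

namespace Fermat.Agent.S55.Loc

variable {Γ : Type} [Group Γ] {𝓝 : LevelSys Γ} {A : Type} [AddCommGroup A] [DistribMulAction Γ A]

/-- "COH(10)" holds (`Coh/Cyclic.lean`). -/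
theorem fourTermHyp (G : Type) [Group G] (B : Type) [AddCommGroup B] [DistribMulAction G B] :
    FourTermHyp G B := fun _ _ _ _ _ _ _ _ h => h.fourTerm (A := B)

/-- The Frobenius generates `Γ` modulo inertia, topologically. -/
def LocalInput.IsDense (I : LocalInput 𝓝 A) : Prop :=
  ∀ N ∈ 𝓝.carrier, ∀ g : Γ, ∃ (i : ℕ), ∃ τ ∈ I.inertia, ∃ ν ∈ N, g = I.frob ^ i * τ * ν

/-- What the concrete layer has to provide at the prime `q`. -/
structure LocalArith (p : ℕ) (q : Nat.Primes) where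
  /-- the abstract input -/
  I : LocalInput (lvlLoc q) (KL q)
  dense : I.IsDense
  /-- elements killed by all unramified characters are in the inertia group -/
  inertia_le : I.inertia ≤ inertiaLoc q
  le_inertia : inertiaLoc q ≤ I.inertia
  /-- every Frobenius element is `frob` modulo inertia -/
  frob_spec : ∀ φ : Gv q, IsFrobLoc q φ → ∃ τ ∈ inertiaLoc q, φ = I.frob * τ
  /-- the valuation of the norm -/
  v_sum : ∀ (Y : Type) [MulAction (Gv q) Y] [Finite Y] [SmoothSet (lvlLoc q) Y]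
    [MulAction.IsPretransitive (Gv q) Y] (a : inv0 (Gv q) (IndMod Y (KL q))) (y : Y) (c : ℤ),
    HasOrdAt q ((ResMod.toRes (ιv q)).symm ((a : IndMod Y (KL q)) y)) c →
    I.v (IndMod.sum (G := Gv q) Y (KL q) (a : IndMod Y (KL q))) = Nat.card Y * c
  L1 : ∀ (Y : Type) [MulAction (Gv q) Y] [Finite Y] [SmoothSet (lvlLoc q) Y]
    (y : HKY q Y 1), y = 0
  L7 : ∀ (Y : Type) [MulAction (Gv q) Y] [Finite Y] [SmoothSet (lvlLoc q) Y]
    (z : Zsm (lvlLoc q) (IndMod Y (KL q)) 2) (N : Subgroup (Gv q)),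
    inertiaLoc q ≤ N → IsLevelAt N z.1 → (∀ τ ∈ inertiaLoc q, ∀ y : Y, τ • y = y) →
    (∀ g y, Kx.IsUnitAt (plc q) ((ResMod.toRes (ιv q)).symm (z.1 g y))) →
    Hsm.mk (lvlLoc q) (IndMod Y (KL q)) 2 z = 0
  L8 : ∀ (Y : Type) [MulAction (Gv q) Y] [Finite Y] [SmoothSet (lvlLoc q) Y]
    [MulAction.IsPretransitive (Gv q) Y] (y : Y),
    (∀ τ : Gv q, τ • y = y → ∀ ζ : Mu p, ιv q τ • ζ = ζ) →
    (nsmulAddMonoidHom (α := HKY q Y 0) p).range.index =
      p ^ (2 + if (q : ℕ) = p then Nat.card Y else 0)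

end Fermat.Agent.S55.Loc
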