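/-
S55 / block LOC : THE RESULT.  The local package `LocPkg p q` exists for every prime `p` and every
prime `q` (local class field theory at `q` in the cohomological form used by S55).
-/
import Fermat.Agent.S55.Loc.Pkg
import Fermat.Agent.S55.Loc.Field.LocalArithFull

set_option autoImplicit false

namespace Fermat.Agent.S55.Loc

/-- **LOC.**  The local package exists. -/
theorem locPkg_exists (p : ℕ) [Fact p.Prime] (q : Nat.Primes) : Nonempty (LocPkg p q) :=
  locPkg_of_localArith p q (Fact.out : p.Prime).pos (Field.localArithFull p Fact.out q)

end Fermat.Agent.S55.Loc
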